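/-
Cluster T (bad reduction at `q ‖ N`), piece BR1, general valuation theory (helper50).
Mathlib only.

* `exists_sep_two`            : two incomparable valuation subrings are separated by an element
* `phiC`, `psiC`              : the Moebius trick making an element integral at finitely many
                                valuation subrings (needs constants with distinct residues)
* `exists_idempotent_like`    : weak approximation: `E ≡ 1` at `O i`, `E ≡ 0` at all other `O j`,
                                `E` integral everywhere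
* `exists_common_denominator` : `s` integral everywhere, unit at `O i`, `s * x l` integral everywhere
-/
import Mathlib
import Fermat.Agent.MUL.Lib.Deuring.FundIneq

set_option autoImplicit false

noncomputable section

namespace Fermat.Agent.BadRed

open scoped Classical

variable {F : Type*} [Field F]

/-- Two incomparable valuation subrings are separated by an element. -/
theorem exists_sep_two {O₁ O₂ : ValuationSubring F} (h12 : ¬ O₁ ≤ O₂) (h21 : ¬ O₂ ≤ O₁) :
    ∃ x : F, x ∈ O₁.nonunits ∧ x - 1 ∈ O₂.nonunits := by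
  obtain ⟨a, ha1, ha2⟩ := SetLike.not_le_iff_exists.mp h12
  obtain ⟨b, hb2, hb1⟩ := SetLike.not_le_iff_exists.mp h21
  have ha1' : O₁.valuation a ≤ 1 := (O₁.valuation_le_one_iff a).mpr ha1
  have hb2' : O₂.valuation b ≤ 1 := (O₂.valuation_le_one_iff b).mpr hb2
  have hb1' : 1 < O₁.valuation b := by
    rw [← not_le]; exact fun h => hb1 ((O₁.valuation_le_one_iff b).mp h)
  have ha2' : 1 < O₂.valuation a := by
    rw [← not_le]; exact fun h => ha2 ((O₂.valuation_le_one_iff a).mp h)
  have h1 : O₁.valuation (a + b) = O₁.valuation b :=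
    Valuation.map_add_eq_of_lt_right _ (lt_of_le_of_lt ha1' hb1')
  have h2 : O₂.valuation (a + b) = O₂.valuation a :=
    Valuation.map_add_eq_of_lt_left _ (lt_of_le_of_lt hb2' ha2')
  have hb0 : O₁.valuation b ≠ 0 := (lt_trans zero_lt_one hb1').ne'
  have ha0 : O₂.valuation a ≠ 0 := (lt_trans zero_lt_one ha2').ne'
  have hab : a + b ≠ 0 := by
    intro h
    rw [h, map_zero] at h1
    exact hb0 h1.symm
  refine ⟨a / (a + b), ?_, ?_⟩
  · rw [ValuationSubring.mem_nonunits_iff, map_div₀, h1]
    rw [div_lt_one₀ (lt_trans zero_lt_one hb1')]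
    exact lt_of_le_of_lt ha1' hb1'
  · have e : a / (a + b) - 1 = -b / (a + b) := by
      field_simp
      ring
    rw [ValuationSubring.mem_nonunits_iff, e, map_div₀, Valuation.map_neg, h2]
    rw [div_lt_one₀ (lt_trans zero_lt_one ha2')]
    exact lt_of_le_of_lt hb2' ha2'

/-- The Moebius transformation `x ↦ x (1 - c) / (x - c)` fixing `0` and `1`, with pole at `c`. -/
def phiC (c x : F) : F := x * (1 - c) / (x - c)

/-- `x ↦ (1 - c) / (x - c)`. -/
def psiC (c x : F) : F := (1 - c) / (x - c)

theorem phiC_eq (c x : F) : phiC c x = psiC c x * x := by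
  unfold phiC psiC; ring

section OneValuation

variable {Γ : Type*} [LinearOrderedCommGroupWithZero Γ] (v : Valuation F Γ)

variable {c x : F}

theorem val_sub_ne_zero (hx : ¬ v (x - c) < 1) : x - c ≠ 0 := by
  intro h
  apply hx
  rw [h, map_zero]
  exact zero_lt_one

theorem val_psiC_le (h1c : v (1 - c) = 1) (hx : ¬ v (x - c) < 1) : v (psiC c x) ≤ 1 := by
  have hx' : 1 ≤ v (x - c) := not_lt.mp hx
  unfold psiC
  rw [map_div₀, h1c]
  rw [div_le_one₀ (lt_of_lt_of_le zero_lt_one hx')]
  exact hx'

theorem val_psiC_eq_one (hc : v c = 1) (h1c : v (1 - c) = 1) (hx : ¬ v (x - c) < 1)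
    (hxO : v x ≤ 1) : v (psiC c x) = 1 := by
  have hx' : 1 ≤ v (x - c) := not_lt.mp hx
  have hle : v (x - c) ≤ 1 := by
    refine le_trans (Valuation.map_sub _ _ _) ?_
    exact max_le hxO hc.le
  have : v (x - c) = 1 := le_antisymm hle hx'
  unfold psiC
  rw [map_div₀, h1c, this, div_one]

theorem val_phiC_le (hc : v c = 1) (h1c : v (1 - c) = 1) (hx : ¬ v (x - c) < 1) :
    v (phiC c x) ≤ 1 := by
  have hx' : 1 ≤ v (x - c) := not_lt.mp hx
  have hpos : 0 < v (x - c) := lt_of_lt_of_le zero_lt_one hx'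
  unfold phiC
  rw [map_div₀, map_mul, h1c, mul_one, div_le_one₀ hpos]
  by_cases hxO : v x ≤ 1
  · exact le_trans hxO hx'
  · have hlt : v c < v x := by rw [hc]; exact not_le.mp hxO
    have : v (x - c) = v x := Valuation.map_sub_eq_of_lt_left _ hlt
    rw [this]

theorem val_phiC_lt (h1c : v (1 - c) = 1) (hx : ¬ v (x - c) < 1)
    (hxm : v x < 1) : v (phiC c x) < 1 := by
  have hx' : 1 ≤ v (x - c) := not_lt.mp hx
  have hpos : 0 < v (x - c) := lt_of_lt_of_le zero_lt_one hx'
  unfold phiC
  rw [map_div₀, map_mul, h1c, mul_one, div_lt_one₀ hpos]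
  exact lt_of_lt_of_le hxm hx'

theorem val_phiC_sub_one_lt (hc : v c = 1) (hx : ¬ v (x - c) < 1)
    (hxm : v (x - 1) < 1) : v (phiC c x - 1) < 1 := by
  have hx' : 1 ≤ v (x - c) := not_lt.mp hx
  have hpos : 0 < v (x - c) := lt_of_lt_of_le zero_lt_one hx'
  have hne := val_sub_ne_zero v hx
  have e : phiC c x - 1 = c * (-(x - 1)) / (x - c) := by
    unfold phiC
    field_simp
    ring
  rw [e, map_div₀, map_mul, hc, one_mul, Valuation.map_neg, div_lt_one₀ hpos]
  exact lt_of_lt_of_le hxm hx'

end OneValuation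

section Family

variable {ι : Type*} (O : ι → ValuationSubring F) (c : ℕ → F)

/-- Constants with pairwise distinct residues avoid any finite set of residues. -/
theorem exists_const_avoiding
    (hcu : ∀ i m m', m ≠ m' → c m - c m' ∉ (O i).nonunits) (T : Finset (ι × F)) :
    ∃ m, ∀ p ∈ T, p.2 - c m ∉ (O p.1).nonunits := by
  have hsub : ∀ p : ι × F, {m | p.2 - c m ∈ (O p.1).nonunits}.Subsingleton := by
    intro p m hm m' hm'
    by_contra hne
    apply hcu p.1 m' m (Ne.symm hne)
    have e : c m' - c m = (p.2 - c m) - (p.2 - c m') := by ring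
    rw [e]
    exact (O p.1).nonunits.sub_mem hm hm'
  have hfin : (⋃ p ∈ T, {m | p.2 - c m ∈ (O p.1).nonunits}).Finite :=
    Set.Finite.biUnion T.finite_toSet (fun p _ => (hsub p).finite)
  obtain ⟨m, hm⟩ := hfin.exists_notMem
  refine ⟨m, fun p hp hmem => hm ?_⟩
  simp only [Set.mem_iUnion]
  exact ⟨p, hp, hmem⟩

variable [Fintype ι]

/-- The Moebius trick: for every `x` there is a constant `a` such that `phiC a x`, `psiC a x` are
integral at every `O i`, `psiC a x` is a unit wherever `x` is integral, and `phiC a x` has the same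
residue as `x` wherever the residue of `x` is `0` or `1`. -/
theorem exists_phiC (hc : ∀ i m, c m ∈ O i)
    (hcu : ∀ i m m', m ≠ m' → c m - c m' ∉ (O i).nonunits) (x : F) :
    ∃ a : F, (∀ i, phiC a x ∈ O i) ∧ (∀ i, psiC a x ∈ O i) ∧
      (∀ i, x ∈ O i → (O i).valuation (psiC a x) = 1) ∧
      (∀ i, x ∈ (O i).nonunits → phiC a x ∈ (O i).nonunits) ∧
      (∀ i, x - 1 ∈ (O i).nonunits → phiC a x - 1 ∈ (O i).nonunits) := by
  obtain ⟨m, hm⟩ := exists_const_avoiding O c hcu
    ((Finset.univ.image fun i : ι => (i, (0 : F))) ∪ (Finset.univ.image fun i : ι => (i, (1 : F)))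
      ∪ (Finset.univ.image fun i : ι => (i, x)))
  have h0 : ∀ i, (O i).valuation (c m) = 1 := by
    intro i
    have h := hm (i, 0) (by simp)
    rw [ValuationSubring.mem_nonunits_iff, zero_sub, Valuation.map_neg, not_lt] at h
    exact le_antisymm (((O i).valuation_le_one_iff _).mpr (hc i m)) h
  have h1 : ∀ i, (O i).valuation (1 - c m) = 1 := by
    intro i
    have h := hm (i, 1) (by simp)
    rw [ValuationSubring.mem_nonunits_iff, not_lt] at h
    refine le_antisymm ?_ h
    exact ((O i).valuation_le_one_iff _).mpr ((O i).sub_mem (O i).one_mem (hc i m))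
  have hx : ∀ i, ¬ (O i).valuation (x - c m) < 1 := by
    intro i
    have h := hm (i, x) (by simp)
    rwa [ValuationSubring.mem_nonunits_iff] at h
  refine ⟨c m, fun i => ?_, fun i => ?_, fun i hxi => ?_, fun i hxi => ?_, fun i hxi => ?_⟩
  · exact ((O i).valuation_le_one_iff _).mp (val_phiC_le _ (h0 i) (h1 i) (hx i))
  · exact ((O i).valuation_le_one_iff _).mp (val_psiC_le _ (h1 i) (hx i))
  · exact val_psiC_eq_one (O i).valuation (h0 i) (h1 i) (hx i)
      (((O i).valuation_le_one_iff _).mpr hxi)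
  · rw [ValuationSubring.mem_nonunits_iff] at hxi ⊢
    exact val_phiC_lt _ (h1 i) (hx i) hxi
  · rw [ValuationSubring.mem_nonunits_iff] at hxi ⊢
    exact val_phiC_sub_one_lt _ (h0 i) (hx i) hxi

theorem nonunits_mul_mem {A : ValuationSubring F} {x y : F} (hx : x ∈ A.nonunits) (hy : y ∈ A) :
    x * y ∈ A.nonunits := by
  rw [ValuationSubring.mem_nonunits_iff] at hx ⊢
  rw [map_mul]
  have hy' := (A.valuation_le_one_iff y).mpr hy
  calc A.valuation x * A.valuation y ≤ A.valuation x * 1 := by gcongr
    _ = A.valuation x := mul_one _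
    _ < 1 := hx

theorem mul_nonunits_mem {A : ValuationSubring F} {x y : F} (hx : x ∈ A) (hy : y ∈ A.nonunits) :
    x * y ∈ A.nonunits := by
  rw [mul_comm]; exact nonunits_mul_mem hy hx

/-- **Weak approximation** for pairwise incomparable valuation subrings: an element which is
integral everywhere, `≡ 1` at `O i` and `≡ 0` at all other `O j`. -/
theorem exists_idempotent_like (hinc : ∀ i j, i ≠ j → ¬ O i ≤ O j)
    (hc : ∀ i m, c m ∈ O i)
    (hcu : ∀ i m m', m ≠ m' → c m - c m' ∉ (O i).nonunits) (i : ι) :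
    ∃ E : F, (∀ j, E ∈ O j) ∧ E - 1 ∈ (O i).nonunits ∧ ∀ j, j ≠ i → E ∈ (O j).nonunits := by
  have hex : ∀ j : ι, ∃ y : F, (∀ l, y ∈ O l) ∧ y - 1 ∈ (O i).nonunits ∧
      (j ≠ i → y ∈ (O j).nonunits) := by
    intro j
    by_cases hji : j = i
    · refine ⟨1, fun l => (O l).one_mem, ?_, fun h => absurd hji h⟩
      rw [sub_self]
      exact (O i).nonunits.zero_mem
    · obtain ⟨x, hx1, hx2⟩ := exists_sep_two (hinc j i hji) (hinc i j (Ne.symm hji))
      obtain ⟨a, ha1, -, -, ha4, ha5⟩ := exists_phiC O c hc hcu x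
      exact ⟨phiC a x, ha1, ha5 i hx2, fun _ => ha4 j hx1⟩
  choose y hy1 hy2 hy3 using hex
  refine ⟨∏ j, y j, fun l => prod_mem fun j _ => hy1 j l, ?_, fun j hj => ?_⟩
  · have key : ∀ s : Finset ι, (∏ j ∈ s, y j) - 1 ∈ (O i).nonunits := by
      intro s
      induction s using Finset.induction_on with
      | empty =>
        rw [Finset.prod_empty, sub_self]
        exact (O i).nonunits.zero_mem
      | insert a s ha ih =>
        rw [Finset.prod_insert ha]
        have e : y a * ∏ j ∈ s, y j - 1 = (y a - 1) * (∏ j ∈ s, y j) + ((∏ j ∈ s, y j) - 1) := by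
          ring
        rw [e]
        exact (O i).nonunits.add_mem
          (nonunits_mul_mem (hy2 a) (prod_mem fun j _ => hy1 j i)) ih
    exact key Finset.univ
  · rw [← Finset.mul_prod_erase Finset.univ y (Finset.mem_univ j)]
    exact nonunits_mul_mem (hy3 j hj) (prod_mem fun l _ => hy1 l j)

/-- Common denominators: finitely many elements integral at `O i` become integral everywhere after
multiplication by an element which is integral everywhere and a unit at `O i`. -/
theorem exists_common_denominator (hc : ∀ i m, c m ∈ O i)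
    (hcu : ∀ i m m', m ≠ m' → c m - c m' ∉ (O i).nonunits) (i : ι)
    {κ : Type*} [Fintype κ] (x : κ → F) (hx : ∀ l, x l ∈ O i) :
    ∃ s : F, (∀ j, s ∈ O j) ∧ (O i).valuation s = 1 ∧ ∀ l j, s * x l ∈ O j := by
  have hex : ∀ l : κ, ∃ a : F, (∀ j, phiC a (x l) ∈ O j) ∧ (∀ j, psiC a (x l) ∈ O j) ∧
      (O i).valuation (psiC a (x l)) = 1 := by
    intro l
    obtain ⟨a, ha1, ha2, ha3, -, -⟩ := exists_phiC O c hc hcu (x l)
    exact ⟨a, ha1, ha2, ha3 i (hx l)⟩
  choose a ha1 ha2 ha3 using hex
  refine ⟨∏ l, psiC (a l) (x l), fun j => prod_mem fun l _ => ha2 l j, ?_, fun l j => ?_⟩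
  · rw [map_prod]
    exact Finset.prod_eq_one fun l _ => ha3 l
  · rw [← Finset.mul_prod_erase Finset.univ _ (Finset.mem_univ l), mul_right_comm,
      ← phiC_eq]
    exact (O j).mul_mem _ _ (ha1 l j) (prod_mem fun l' _ => ha2 l' j)

end Family

end Fermat.Agent.BadRed
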